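import Fermat.Agent.S12.Contracts
import Fermat.Agent.S12.Start.Frey
import Fermat.Agent.S13.AtP
import Fermat.Agent.S13.AtPRoots
import Fermat.Agent.MR.E.CycA

/-!
# S12 : the contract `StarP`

`A ∣ p`.  The inertia group contains `τ` with `τ ζ = ζ^c`, `1 < c < p`; so `(τ - 1)² Q = (c-1)² Q` lies in the
kernel of reduction `E₁(A)` (`S13.frey_at_p_aux`), hence `Q ∈ E₁(A)` and all `k Q ≠ 0` have `|x| > 1`, so that
`|ψ₂(kQ)|² = |x|³ > 1`.
-/

set_option autoImplicit false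
set_option linter.unusedSectionVars false
set_option linter.unusedVariables false

namespace Fermat.Agent.S12.AtP

open Fermat.Agent.S05 Fermat.Agent.S13 Fermat.Agent.S58 Fermat.Agent.S58.LocM
  Fermat.Agent.S15.M1.Loc
open WeierstrassCurve WeierstrassCurve.Affine WeierstrassCurve.Affine.Point

section gen

variable {K : Type*} [Field K] {Γ₀ : Type*} [LinearOrderedCommGroupWithZero Γ₀]
  {v : Valuation K Γ₀}

/-- a point of the kernel of reduction has `|ψ₂| > 1` (odd residue characteristic). -/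
theorem one_lt_val_psi2 {V : Affine K} (h₁ : v V.a₁ ≤ 1) (h₂ : v V.a₂ ≤ 1) (h₃ : v V.a₃ ≤ 1)
    (h₄ : v V.a₄ ≤ 1) (h₆ : v V.a₆ ≤ 1) (h2 : v (2 : K) = 1) {T : V.Point} (hT : T ≠ 0)
    (hx : 1 < v (xc T)) : 1 < v (psi2 T) := by
  have hb2 : v V.b₂ ≤ 1 := by
    unfold WeierstrassCurve.b₂
    exact le1_add v (le1_pow v h₁ 2) (le1_mul v (le1_ofNat v 4) h₂)
  have hb4 : v V.b₄ ≤ 1 := by
    unfold WeierstrassCurve.b₄
    exact le1_add v (le1_mul v (le1_ofNat v 2) h₄) (le1_mul v h₁ h₃)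
  have hb6 : v V.b₆ ≤ 1 := by
    unfold WeierstrassCurve.b₆
    exact le1_add v (le1_pow v h₃ 2) (le1_mul v (le1_ofNat v 4) h₆)
  have h4 : v (4 : K) = 1 := by
    have : (4 : K) = 2 * 2 := by norm_num
    rw [this, map_mul, h2, one_mul]
  set t := v (xc T) with ht
  have ht0 : 0 < t := lt_trans zero_lt_one hx
  have h12 : t < t ^ 2 := by
    rw [pow_two]
    exact lt_mul_of_one_lt_left ht0 hx
  have h23 : t ^ 2 < t ^ 3 := by
    rw [pow_succ t 2]
    exact lt_mul_of_one_lt_right (pow_pos ht0 2) hx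
  have e1 : v (4 * xc T ^ 3) = t ^ 3 := by rw [map_mul, h4, one_mul, map_pow]
  have e2 : v (V.b₂ * xc T ^ 2) ≤ t ^ 2 := by
    rw [map_mul, map_pow]
    exact mul_le_of_le_one_left' hb2
  have e3 : v (2 * V.b₄ * xc T) ≤ t := by
    rw [map_mul, map_mul, h2, one_mul]
    exact mul_le_of_le_one_left' hb4
  have hsq : v (psi2 T ^ 2) = t ^ 3 := by
    rw [psi2_sq hT, add_assoc, add_assoc]
    rw [Valuation.map_add_eq_of_lt_left, e1]
    rw [e1]
    refine Valuation.map_add_lt v (e2.trans_lt h23) (Valuation.map_add_lt v ?_ ?_)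
    · exact e3.trans_lt (h12.trans h23)
    · exact hb6.trans_lt (hx.trans (h12.trans h23))
  by_contra hc
  push Not at hc
  have h1 : v (psi2 T ^ 2) ≤ 1 := le1_pow v hc 2
  rw [hsq] at h1
  exact absurd (hx.trans (h12.trans h23)) (not_lt.mpr h1)

end gen

/-- `StarP` for a curve which is only propositionally equal to the Frey curve. -/
theorem starP_aux (P : FreyPackage) (W' : WeierstrassCurve ℚ) (hW' : W' = P.freyCurve)
    (Q : (W'⁄Qb).Point) (hQ : addOrderOf Q = P.p)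
    (hcyc : ∀ (σ : GQ) (ζ : Qb) (c : ℕ), IsPrimitiveRoot ζ P.p → σ ζ = ζ ^ c → σ • Q = c • Q)
    (A : ValuationSubring Qb) (hA : A.LiesOverPrime P.p) :
    1 ≤ A.valuation (psiProd Q P.p) := by
  subst hW'
  have hpp := P.pp
  have hp2 : P.p ≠ 2 := by have := P.hp5; omega
  have hvp : A.valuation ((P.p : ℕ) : Qb) < 1 := A.mem_nonunits_iff.mp hA
  obtain ⟨V₁, hV₁, -, hsq⟩ := frey_at_p P A hA
  have : NeZero P.p := ⟨hpp.ne_zero⟩
  have : NeZero (P.p : Qb) := ⟨Nat.cast_ne_zero.2 hpp.ne_zero⟩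
  obtain ⟨ζ, hζ⟩ := HasEnoughRootsOfUnity.exists_primitiveRoot Qb P.p
  obtain ⟨τ, hτ, c, hc1, hcp, hτζ⟩ := MR.E.exists_tau A hpp hA hp2 hζ
  have hτQ := hcyc τ ζ c hζ hτζ
  have hpQ : P.p • Q = 0 := by rw [← hQ]; exact addOrderOf_nsmul_eq_zero Q
  obtain ⟨d, rfl⟩ : ∃ d, c = d + 1 := ⟨c - 1, by omega⟩
  -- `(τ - 1)² Q = d² Q`
  have e1 : τ • Q - Q = d • Q := by rw [hτQ, succ_nsmul, add_sub_cancel_right]
  have e2 : τ • (d • Q) = d • (τ • Q) :=
    map_nsmul (DistribSMul.toAddMonoidHom (P.freyCurve⁄Qb).Point τ) d Q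
  have e3 : τ • (τ • Q - Q) - (τ • Q - Q) = (d * d) • Q := by
    rw [e1, e2, ← nsmul_sub, e1, mul_nsmul]
  have hmem : (d * d) • Q ∈ V₁ := by
    rw [← e3]
    exact hsq τ hτ Q hpQ
  have hdp : Nat.Coprime d P.p := by
    rw [Nat.coprime_comm, Nat.Prime.coprime_iff_not_dvd hpp]
    intro h
    have := Nat.le_of_dvd (by omega) h
    omega
  obtain ⟨b, -, hb⟩ := Nat.exists_mul_mod_eq_of_coprime 1 (Nat.Coprime.mul_left hdp hdp)
    hpp.ne_zero
  have hQV : Q ∈ V₁ := by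
    have e : b • ((d * d) • Q) = Q := by
      rw [← mul_nsmul']
      have hb' : b * (d * d) ≡ 1 [MOD P.p] := by rw [mul_comm]; exact hb
      have h3 := (nsmul_eq_nsmul_iff_modEq (x := Q) (n := b * (d * d)) (m := 1)).2
        (by rw [hQ]; exact hb')
      rw [h3, one_nsmul]
    rw [← e]
    exact V₁.nsmul_mem hmem b
  have h2 : A.valuation (2 : Qb) = 1 := by
    have h : ¬ (P.p : ℤ) ∣ (2 : ℤ) := by
      intro h
      have h' : P.p ∣ 2 := by exact_mod_cast h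
      exact hp2 ((Nat.prime_dvd_prime_iff_eq hpp Nat.prime_two).mp h')
    have h3 := valInt_eq_one A.valuation hpp hvp h
    simpa using h3
  obtain ⟨h₁, h₂, h₃, h₄, h₆⟩ := frey_val_a P A.valuation hpp hp2 hvp
  unfold psiProd
  rw [map_prod]
  refine one_le_prod_val _ _ fun k hk => ?_
  have hk0 := nsmul_ne_zero_of_mem_Ico hQ hk
  have hx := ((hV₁ _).1 (V₁.nsmul_mem hQV k)).resolve_left hk0
  exact (one_lt_val_psi2 h₁ h₂ h₃ h₄ h₆ h2 hk0 hx).le

/-- **CONTRACT STAR-P.** -/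
theorem starP : StarP := by
  intro P Q hQ hcyc A hA
  exact starP_aux P _ (Start.freyInt_map P) Q hQ hcyc A hA

end Fermat.Agent.S12.AtP
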