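import Fermat.Agent.S13.LocalP

/-!
# S12 / STAR-P, abstract part (frame of `S13`: `Y² = 4X³ + b₂X² + 4mX`, odd residue characteristic)

A nonzero point `T` of odd prime order `p` whose reduction is a nonsingular point has `1 ≤ v (Y T)`
(`Y = ψ₂ = 2y + a₁x + a₃`): otherwise `2T` lies in the kernel of reduction, hence so does
`T = ((p+1)/2)(2T)`, and then `v (Y T) > 1`.
-/

set_option autoImplicit false
set_option linter.unusedSectionVars false
set_option linter.unusedVariables false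

namespace Fermat.Agent.S12.AtP

open Fermat.Agent.S05 Fermat.Agent.S13

variable {G : Type*} [AddCommGroup G] {K : Type*} [Field K]
  {Γ₀ : Type*} [LinearOrderedCommGroupWithZero Γ₀]
  {v : Valuation K Γ₀} {X Y Z : G → K} {m b₂ : K}

/-- a point of the kernel of reduction has `1 < v Y`. -/
theorem one_lt_Y_of_one_lt_X (h : IsXY2 X Y Z m b₂) (h2 : v (2 : K) = 1) (hm1 : v m ≤ 1)
    (hb1 : v b₂ ≤ 1) {T : G} (hx : 1 < v (X T)) : 1 < v (Y T) := by
  have h4 := v_four (v := v) h2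
  have hx0 : 0 < v (X T) := lt_trans zero_lt_one hx
  have e : Y T ^ 2 = 4 * X T ^ 3 + (b₂ * X T ^ 2 + 4 * m * X T) := by rw [h.Y_sq]; ring
  have h3 : v (4 * X T ^ 3) = v (X T) ^ 3 := by rw [map_mul, h4, one_mul, map_pow]
  have a1 : v (b₂ * X T ^ 2) < v (X T) ^ 3 := by
    rw [map_mul, map_pow]
    calc v b₂ * v (X T) ^ 2 ≤ 1 * v (X T) ^ 2 := by gcongr
      _ = v (X T) ^ 2 := one_mul _
      _ < v (X T) ^ 3 := pow_lt_pow_right₀ hx (by norm_num)
  have a2 : v (4 * m * X T) < v (X T) ^ 3 := by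
    rw [map_mul, map_mul, h4, one_mul]
    calc v m * v (X T) ≤ 1 * v (X T) := by gcongr
      _ = v (X T) ^ 1 := by rw [one_mul, pow_one]
      _ < v (X T) ^ 3 := pow_lt_pow_right₀ hx (by norm_num)
  have a3 : v (b₂ * X T ^ 2 + 4 * m * X T) < v (4 * X T ^ 3) := by
    rw [h3]
    exact lt_of_le_of_lt (v.map_add _ _) (max_lt a1 a2)
  have h5 : v (Y T) ^ 2 = v (X T) ^ 3 := by
    rw [← map_pow, e, Valuation.map_add_eq_of_lt_left v a3, h3]
  by_contra hcon
  push Not at hcon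
  have h6 : v (Y T) ^ 2 ≤ 1 := pow_le_one' hcon 2
  rw [h5] at h6
  exact absurd h6 (not_le.2 (one_lt_pow₀ hx (by norm_num)))

/-- **abstract STAR-P.** -/
theorem one_le_Y (h : IsXY2 X Y Z m b₂) (h2 : v (2 : K) = 1) (hm1 : v m ≤ 1) (hb1 : v b₂ ≤ 1)
    {p : ℕ} (hp : p.Prime) (hp2 : p ≠ 2) {T : G} (hT : T ≠ 0) (hpT : p • T = 0)
    (hnc : v (X T) ≤ 1 → v (Y T) < 1 → v (12 * X T ^ 2 + 2 * b₂ * X T + 4 * m) = 1) :
    1 ≤ v (Y T) := by
  by_contra hcon
  push Not at hcon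
  have h4 := v_four (v := v) h2
  have h16 : v (16 : K) = 1 := by
    have : (16 : K) = 4 * 4 := by norm_num
    rw [this, map_mul, h4, one_mul]
  have hx : v (X T) ≤ 1 := by
    by_contra hx
    push Not at hx
    exact absurd (one_lt_Y_of_one_lt_X h h2 hm1 hb1 hx) (not_lt.2 hcon.le)
  have hTT : T + T ≠ 0 := by
    intro h0
    have := half_smul hp hp2 hpT
    rw [h0, smul_zero] at this
    exact hT this.symm
  have hd := h.dbl hT hTT
  have hF := hnc hx hcon
  have hy2 : v (Y T ^ 2) < 1 := by rw [sq]; exact lt1_mul_left v hcon hcon.le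
  have e2 : 16 * (X T ^ 2 - m) ^ 2 = (12 * X T ^ 2 + 2 * b₂ * X T + 4 * m) ^ 2 +
      -((4 * b₂ + 32 * X T) * Y T ^ 2) := by rw [h.Y_sq]; ring
  have h5 : v ((X T ^ 2 - m) ^ 2) = 1 := by
    have h6 : v (16 * (X T ^ 2 - m) ^ 2) = 1 := by
      rw [e2]
      apply S13.v_add_unit
      · rw [map_pow, hF, one_pow]
      · rw [Valuation.map_neg]
        exact lt1_mul_right v (le1_add v (le1_mul v h4.le hb1)
          (le1_mul v (le1_ofNat v 32) hx)) hy2
    rwa [map_mul, h16, one_mul] at h6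
  rw [← hd] at h5
  have h2T : InE1 v X (T + T) := Or.inr (gt1_of_mul h5 hy2)
  have h7 := InE1.nsmul h hm1 hb1 h2T ((p + 1) / 2)
  rw [half_smul hp hp2 hpT] at h7
  rcases h7 with h0 | h0
  · exact hT h0
  · exact absurd hx (not_le.2 h0)

/-- the two cases: good reduction, or multiplicative reduction and `T` not at the node. -/
theorem one_le_Y_of_red (h : IsXY2 X Y Z m b₂) (h2 : v (2 : K) = 1)
    (hred : (v m < 1 ∧ v b₂ = 1) ∨ (v m = 1 ∧ v b₂ ≤ 1 ∧ v (b₂ ^ 2 - 64 * m) = 1))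
    {p : ℕ} (hp : p.Prime) (hp2 : p ≠ 2) {T : G} (hT : T ≠ 0) (hpT : p • T = 0)
    (hE0 : v m < 1 → InE0 v X T) : 1 ≤ v (Y T) := by
  rcases hred with ⟨hm1, hb⟩ | ⟨hm, hb1, hD⟩
  · refine one_le_Y h h2 hm1.le hb.le hp hp2 hT hpT ?_
    intro hx hy
    rcases hE0 hm1 with h0 | h0
    · exact absurd h0 hT
    · exact nc_mult h2 hm1 hb (le_antisymm hx h0) (h.Y_sq T) hy
  · refine one_le_Y h h2 hm.le hb1 hp hp2 hT hpT ?_
    intro hx hy
    exact nc_good h2 hm hb1 hD hx (h.Y_sq T) hy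

section inertia

variable {σG : G →+ G} {σK : K →+* K}

/-- multiplicative reduction: a point of order `p` on which some element of inertia acts by a scalar
`c ≢ 1 mod p` does not reduce to the node. -/
theorem inE0_of_scalar (h : IsXY2 X Y Z m b₂) (h2 : v (2 : K) = 1)
    (hσ0 : ∀ P, P ≠ 0 → σG P ≠ 0)
    (hσX : ∀ P, X (σG P) = σK (X P))
    (hσY : ∀ P, Y (σG P) = σK (Y P))
    (hσI : ∀ x, v x ≤ 1 → v (σK x - x) < 1)
    (hσv : ∀ x, v (σK x) = v x)
    (hm1 : v m < 1) (hm0 : m ≠ 0) (hb : v b₂ = 1)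
    {p : ℕ} (hp : p.Prime) (hp2 : p ≠ 2) {Q : G} (hpQ : p • Q = 0)
    {c : ℕ} (hc1 : 1 < c) (hcp : c < p) (hc : σG Q = c • Q) : InE0 v X Q := by
  by_cases hQ : Q = 0
  · exact Or.inl hQ
  rcases lt_or_ge (v (X Q)) 1 with hx | hx
  · have h1 := sigma_sub_mem_E0 h h2 hσ0 hσX hσY hσI hσv hm1 hm0 hb hp hp2 hQ hpQ hx
    have e1 : σG Q - Q = (c - 1) • Q := by
      rw [hc]
      obtain ⟨d, rfl⟩ : ∃ d, c = d + 1 := ⟨c - 1, by omega⟩
      rw [succ_nsmul, Nat.add_sub_cancel, add_sub_cancel_right]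
    rw [e1] at h1
    -- invert `c - 1` modulo `p`
    have hcop : Nat.Coprime (c - 1) p := by
      rw [Nat.coprime_comm]
      exact (Nat.Prime.coprime_iff_not_dvd hp).2 (fun hd => by
        have := Nat.le_of_dvd (by omega) hd
        omega)
    obtain ⟨d, -, hd⟩ := Nat.exists_mul_mod_eq_one_of_coprime hcop hp.one_lt
    have h3 := InE0.nsmul h hm1 hb.le h1 d
    have e2 : d • (c - 1) • Q = Q := by
      rw [← mul_smul, mul_comm]
      have h4 : (c - 1) * d = p * ((c - 1) * d / p) + 1 := by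
        have := Nat.div_add_mod ((c - 1) * d) p
        rw [hd] at this
        exact this.symm
      rw [h4, add_smul, one_smul, mul_comm, mul_smul, hpQ, smul_zero, zero_add]
    rwa [e2] at h3
  · exact Or.inr hx

end inertia

end Fermat.Agent.S12.AtP
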