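import Fermat.Agent.S12.Contracts
import Fermat.Agent.S12.AtP.Abs
import Fermat.Agent.S12.Start.Frey
import Fermat.Agent.S13.AtP
import Fermat.Agent.S13.AtPRoots
import Fermat.Agent.MR.E.CycA

/-!
# S12 / STAR-P : `1 ≤ |ψ₂(kQ)|_A` for `A ∣ p` on the Frey curve (contract `S12.StarP`)
-/

set_option autoImplicit false
set_option linter.unusedSectionVars false
set_option linter.unusedVariables false

namespace Fermat.Agent.S12.AtP

open Fermat.Agent.S05 Fermat.Agent.S13 Fermat.Agent.S58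
open WeierstrassCurve WeierstrassCurve.Affine WeierstrassCurve.Affine.Point

/-- the local statement for a curve `y² = (x-e)(x-e-α)(x-e-β)` (up to the usual change of variables), odd residue
characteristic, good or multiplicative reduction. -/
theorem one_le_Yc_of (W' : Affine ℚ) (A : ValuationSubring Qb) {τ : GQ}
    (hτ : τ ∈ A.inertiaSubgroupIn ℚ) (hτv : ∀ x, A.valuation (τ x) = A.valuation x)
    {e α β : ℚ}
    (hb2 : W'.b₂ = -4 * (3 * e + α + β))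
    (hb4 : W'.b₄ = 2 * (3 * e ^ 2 + 2 * e * (α + β) + α * β))
    (hb6 : W'.b₆ = -4 * e * (e + α) * (e + β))
    (hα1 : A.valuation (algebraMap ℚ Qb α) ≤ 1) (hα0 : α ≠ 0)
    (hβ : A.valuation (algebraMap ℚ Qb β) = 1)
    (hαβ : A.valuation (algebraMap ℚ Qb (α - β)) = 1) (h2 : A.valuation (2 : Qb) = 1)
    {p : ℕ} (hp : p.Prime) (hp2 : p ≠ 2)
    {Q : (W'⁄Qb).Point} (hpQ : p • Q = 0) {c : ℕ} (hc1 : 1 < c) (hcp : c < p)
    (hc : τ • Q = c • Q) (k : ℕ) (hk : k • Q ≠ 0) : 1 ≤ A.valuation (Yc (k • Q)) := by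
  have hb2' : (W'⁄Qb).b₂ =
      -4 * (3 * algebraMap ℚ Qb e + algebraMap ℚ Qb α + algebraMap ℚ Qb β) := by
    change (W'.map (algebraMap ℚ Qb)).b₂ = _
    rw [map_b₂, hb2]; simp
  have hb4' : (W'⁄Qb).b₄ = 2 * (3 * algebraMap ℚ Qb e ^ 2 + 2 * algebraMap ℚ Qb e *
      (algebraMap ℚ Qb α + algebraMap ℚ Qb β) + algebraMap ℚ Qb α * algebraMap ℚ Qb β) := by
    change (W'.map (algebraMap ℚ Qb)).b₄ = _
    rw [map_b₄, hb4]; simp
  have hb6' : (W'⁄Qb).b₆ = -4 * algebraMap ℚ Qb e * (algebraMap ℚ Qb e + algebraMap ℚ Qb α) *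
      (algebraMap ℚ Qb e + algebraMap ℚ Qb β) := by
    change (W'.map (algebraMap ℚ Qb)).b₆ = _
    rw [map_b₆, hb6]; simp
  have hXY := isXY2_of hb2' hb4' hb6'
  have h4 := v_four (v := A.valuation) h2
  have hβ0 : algebraMap ℚ Qb β ≠ 0 := by
    intro h0; rw [h0, _root_.map_zero] at hβ; exact zero_ne_one hβ
  have hm0 : algebraMap ℚ Qb α * algebraMap ℚ Qb β ≠ 0 :=
    mul_ne_zero ((_root_.map_ne_zero _).mpr hα0) hβ0
  have hpk : p • (k • Q) = 0 := by rw [smul_comm, hpQ, nsmul_zero]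
  have hred : (A.valuation (algebraMap ℚ Qb α * algebraMap ℚ Qb β) < 1 ∧
        A.valuation (-4 * (algebraMap ℚ Qb α + algebraMap ℚ Qb β)) = 1) ∨
      (A.valuation (algebraMap ℚ Qb α * algebraMap ℚ Qb β) = 1 ∧
        A.valuation (-4 * (algebraMap ℚ Qb α + algebraMap ℚ Qb β)) ≤ 1 ∧
        A.valuation ((-4 * (algebraMap ℚ Qb α + algebraMap ℚ Qb β)) ^ 2 -
          64 * (algebraMap ℚ Qb α * algebraMap ℚ Qb β)) = 1) := by
    rcases lt_or_eq_of_le hα1 with hlt | heq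
    · left
      refine ⟨?_, ?_⟩
      · rw [map_mul, hβ, mul_one]; exact hlt
      · rw [map_mul, Valuation.map_neg, h4, one_mul, add_comm]
        rw [← hβ]
        exact Valuation.map_add_eq_of_lt_left _ (by rw [hβ]; exact hlt)
    · right
      refine ⟨?_, ?_, ?_⟩
      · rw [map_mul, hβ, heq, mul_one]
      · rw [map_mul, Valuation.map_neg, h4, one_mul]
        exact le1_add _ hα1 hβ.le
      · have : (-4 * (algebraMap ℚ Qb α + algebraMap ℚ Qb β)) ^ 2 -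
            64 * (algebraMap ℚ Qb α * algebraMap ℚ Qb β) =
              4 * 4 * (algebraMap ℚ Qb (α - β)) ^ 2 := by
          rw [map_sub]; ring
        rw [this, map_mul, map_mul, map_pow, h4, hαβ]
        simp
  refine one_le_Y_of_red hXY h2 hred hp hp2 hk hpk ?_
  intro hm1
  have hb : A.valuation (-4 * (algebraMap ℚ Qb α + algebraMap ℚ Qb β)) = 1 := by
    rcases hred with h | h
    · exact h.2
    · exact absurd h.1 hm1.ne
  refine InE0.nsmul hXY hm1 hb.le ?_ k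
  refine inE0_of_scalar (v := A.valuation)
    (σG := DistribSMul.toAddMonoidHom (W'⁄Qb).Point τ) (σK := (τ : Qb →+* Qb)) hXY h2 ?_ ?_ ?_ ?_ ?_
    hm1 hm0 hb hp hp2 hpQ hc1 hcp hc
  · intro R hR
    exact (smul_ne_zero_iff_ne τ).mpr hR
  · intro R
    exact Xc_smul W' τ e R
  · intro R
    exact Yc_smul W' τ R
  · intro y hy
    exact inertia_congr A hτ hy
  · intro y
    exact hτv y

/-- the Frey curve at `A ∣ p`. -/
theorem frey_one_le_Yc (P : FreyPackage) (A : ValuationSubring Qb)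
    (hvq : A.valuation ((P.p : ℕ) : Qb) < 1) {τ : GQ}
    (hτ : τ ∈ A.inertiaSubgroupIn ℚ) (hτv : ∀ x, A.valuation (τ x) = A.valuation x)
    {Q : (P.freyCurve⁄Qb).Point} (hpQ : P.p • Q = 0) {c : ℕ} (hc1 : 1 < c) (hcp : c < P.p)
    (hc : τ • Q = c • Q) (k : ℕ) (hk : k • Q ≠ 0) : 1 ≤ A.valuation (Yc (k • Q)) := by
  have hq := P.pp
  have hp2 : P.p ≠ 2 := by have := P.hp5; omega
  have one_of : ∀ {n : ℤ}, ¬ (P.p : ℤ) ∣ n →
      A.valuation (algebraMap ℚ Qb (n : ℚ)) = 1 := by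
    intro n hn
    rw [map_intCast]
    exact valInt_eq_one _ hq hvq hn
  have le_of : ∀ (n : ℤ), A.valuation (algebraMap ℚ Qb (n : ℚ)) ≤ 1 := by
    intro n
    rw [map_intCast]
    exact valInt_le _ n
  have h2 : A.valuation (2 : Qb) = 1 := by
    have : ¬ (P.p : ℤ) ∣ (2 : ℤ) := by
      intro h
      have h' : P.p ∣ 2 := by exact_mod_cast h
      exact hp2 ((Nat.prime_dvd_prime_iff_eq hq Nat.prime_two).mp h')
    have h3 := valInt_eq_one A.valuation hq hvq this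
    simpa using h3
  have hFLT := frey_FLT P
  have ha0 : (P.a : ℚ) ^ P.p ≠ 0 := pow_ne_zero _ (by exact_mod_cast P.ha0)
  have hb0 : (P.b : ℚ) ^ P.p ≠ 0 := pow_ne_zero _ (by exact_mod_cast P.hb0)
  have hc0 : (P.c : ℚ) ^ P.p ≠ 0 := pow_ne_zero _ (by exact_mod_cast P.hc0)
  by_cases hb : (P.p : ℤ) ∣ P.b
  · have ha : ¬ (P.p : ℤ) ∣ P.a := not_dvd_of_gcd hq (by rw [gcd_comm]; exact P.hgcdab) hb
    have hc' : ¬ (P.p : ℤ) ∣ P.c := not_dvd_of_gcd hq P.hgcdbc hb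
    refine one_le_Yc_of P.freyCurve A hτ hτv (e := 0) (α := -(P.b : ℚ) ^ P.p / 4)
      (β := (P.a : ℚ) ^ P.p / 4) ?_ ?_ ?_ ?_ ?_ ?_ ?_ h2 hq hp2 hpQ hc1 hcp hc k hk
    · rw [frey_b₂]; ring
    · rw [frey_b₄]; ring
    · rw [frey_b₆]; ring
    · rw [val_neg_pow_div_four _ h2]; exact pow_le_one' (le_of _) _
    · exact div_ne_zero (neg_ne_zero.mpr hb0) (by norm_num)
    · rw [val_pow_div_four _ h2, one_of ha, one_pow]
    · have : -(P.b : ℚ) ^ P.p / 4 - (P.a : ℚ) ^ P.p / 4 = -(P.c : ℚ) ^ P.p / 4 := by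
        rw [← hFLT]; ring
      rw [this, val_neg_pow_div_four _ h2, one_of hc', one_pow]
  by_cases hc' : (P.p : ℤ) ∣ P.c
  · have ha : ¬ (P.p : ℤ) ∣ P.a := not_dvd_of_gcd hq (by rw [gcd_comm]; exact P.hgcdac) hc'
    refine one_le_Yc_of P.freyCurve A hτ hτv (e := (P.a : ℚ) ^ P.p / 4)
      (α := -(P.c : ℚ) ^ P.p / 4) (β := -(P.a : ℚ) ^ P.p / 4) ?_ ?_ ?_ ?_ ?_ ?_ ?_ h2 hq hp2
      hpQ hc1 hcp hc k hk
    · rw [frey_b₂, ← hFLT]; ring
    · rw [frey_b₄, ← hFLT]; ring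
    · rw [frey_b₆]; ring
    · rw [val_neg_pow_div_four _ h2]; exact pow_le_one' (le_of _) _
    · exact div_ne_zero (neg_ne_zero.mpr hc0) (by norm_num)
    · rw [val_neg_pow_div_four _ h2, one_of ha, one_pow]
    · have : -(P.c : ℚ) ^ P.p / 4 - -(P.a : ℚ) ^ P.p / 4 = -(P.b : ℚ) ^ P.p / 4 := by
        rw [← hFLT]; ring
      rw [this, val_neg_pow_div_four _ h2, one_of hb, one_pow]
  · refine one_le_Yc_of P.freyCurve A hτ hτv (e := 0) (α := (P.a : ℚ) ^ P.p / 4)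
      (β := -(P.b : ℚ) ^ P.p / 4) ?_ ?_ ?_ ?_ ?_ ?_ ?_ h2 hq hp2 hpQ hc1 hcp hc k hk
    · rw [frey_b₂]; ring
    · rw [frey_b₄]; ring
    · rw [frey_b₆]; ring
    · rw [val_pow_div_four _ h2]; exact pow_le_one' (le_of _) _
    · exact div_ne_zero ha0 (by norm_num)
    · rw [val_neg_pow_div_four _ h2, one_of hb, one_pow]
    · have : (P.a : ℚ) ^ P.p / 4 - -(P.b : ℚ) ^ P.p / 4 = (P.c : ℚ) ^ P.p / 4 := by
        rw [← hFLT]; ring
      rw [this, val_pow_div_four _ h2, one_of hc', one_pow]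

/-- the same for any curve equal to the Frey curve. -/
theorem frey_one_le_Yc' (P : FreyPackage) (W' : WeierstrassCurve ℚ) (hW : W' = P.freyCurve)
    (A : ValuationSubring Qb)
    (hvq : A.valuation ((P.p : ℕ) : Qb) < 1) {τ : GQ}
    (hτ : τ ∈ A.inertiaSubgroupIn ℚ) (hτv : ∀ x, A.valuation (τ x) = A.valuation x)
    {Q : (W'⁄Qb).Point} (hpQ : P.p • Q = 0) {c : ℕ} (hc1 : 1 < c) (hcp : c < P.p)
    (hc : τ • Q = c • Q) (k : ℕ) (hk : k • Q ≠ 0) : 1 ≤ A.valuation (Yc (k • Q)) := by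
  subst hW
  exact frey_one_le_Yc P A hvq hτ hτv hpQ hc1 hcp hc k hk

lemma psi2_eq_Yc {F : Type*} [Field F] [DecidableEq F] {W : Affine F} {T : W.Point} (hT : T ≠ 0) :
    S15.M1.Loc.psi2 T = Yc T := by
  rcases T with _ | ⟨x, y, h⟩
  · exact absurd rfl hT
  · rfl

/-- **CONTRACT STAR-P.** -/
theorem starP_bis : StarP := by
  intro P Q hQ hcyc A hA
  have hpp := P.pp
  have hp2 : P.p ≠ 2 := by have := P.hp5; omega
  have hvq : A.valuation ((P.p : ℕ) : Qb) < 1 := A.mem_nonunits_iff.mp hA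
  have : NeZero (P.p : Qb) := ⟨Nat.cast_ne_zero.2 hpp.ne_zero⟩
  have : NeZero P.p := ⟨hpp.ne_zero⟩
  obtain ⟨ζ, hζ⟩ := HasEnoughRootsOfUnity.exists_primitiveRoot Qb P.p
  obtain ⟨τ, hτ, c, hc1, hcp, hc⟩ := MR.E.exists_tau A hpp hA hp2 hζ
  have halg := isAlgebraic_Qbar inferInstance
  have hpQ : P.p • Q = 0 := by rw [← hQ]; exact addOrderOf_nsmul_eq_zero Q
  unfold S15.M1.Loc.psiProd
  rw [map_prod]
  refine one_le_prod_val _ _ ?_
  intro k hk
  have hk0 : k • Q ≠ 0 := S15.M1.Loc.nsmul_ne_zero_of_mem_Ico hQ hk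
  rw [psi2_eq_Yc hk0]
  exact frey_one_le_Yc' P _ (Start.freyInt_map P) A hvq hτ (val_sigma_eq A hτ) hpQ hc1 hcp
    (hcyc τ ζ c hζ hc) k hk0

end Fermat.Agent.S12.AtP
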